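import Mathlib
import Fermat.Agent.FreeGenerators.Measure
import Fermat.Agent.Local.Minkowski

/-!
# Square roots fixed by random tuples

Square roots of different squarefree integers give only finitely many elements of a number field, so
for every `m` some `m` of them are independent over it, and almost every tuple fixes infinitely
many.
-/

set_option autoImplicit false

noncomputable section

namespace Fermat.Agent.RandomFields

open MeasureTheory

local notation "Qb" => AlgebraicClosure ℚ
local notation "GQ" => AlgebraicClosure ℚ ≃ₐ[ℚ] AlgebraicClosure ℚ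

/-- Squarefree integers with square product are equal. -/
theorem eq_of_squarefree_mul_eq_sq {a b c : ℤ} (ha : Squarefree a) (hb : Squarefree b)
    (h : a * b = c ^ 2) : a = b := by
  have key : ∀ {x y : ℤ}, Squarefree x → x * y = c ^ 2 → ∀ p : ℕ, p.Prime →
      p ∣ x.natAbs → p ∣ y.natAbs := by
    intro x y hx hxy p hp hpx
    have hpZ := Nat.prime_iff_prime_int.1 hp
    have h1 : (p : ℤ) ∣ c :=
      hpZ.dvd_of_dvd_pow (n := 2) (hxy ▸ (Int.natCast_dvd.2 hpx).mul_right y)
    by_contra hy
    refine hpZ.not_isUnit (hx _ ?_)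
    rw [← sq]
    exact hpZ.pow_dvd_of_dvd_mul_right 2 (fun e => hy (Int.natCast_dvd.1 e))
      (hxy ▸ pow_dvd_pow_of_dvd h1 2)
  have habs : a.natAbs = b.natAbs :=
    (Nat.Squarefree.ext_iff (Int.squarefree_natAbs.2 ha) (Int.squarefree_natAbs.2 hb)).2
      fun p hp => ⟨key ha h p hp, key hb ((mul_comm b a).trans h) p hp⟩
  rcases Int.natAbs_eq_natAbs_iff.1 habs with e | e
  · exact e
  · rw [e] at h
    nlinarith [sq_nonneg c, mul_self_pos.2 hb.ne_zero]

variable {w : ℕ → Qb} {d : ℕ → ℤ} (hw : ∀ k, w k ^ 2 = (d k : Qb))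

include hw in
theorem apply_eq_or_eq_neg (g : GQ) (k : ℕ) : g (w k) = w k ∨ g (w k) = -w k :=
  sq_eq_sq_iff_eq_or_eq_neg.1 (by rw [← map_pow, hw, map_intCast])

variable (hd : Function.Injective d) (hsf : ∀ k, Squarefree (d k))

include hw hd hsf in
/-- Only finitely many of the square roots lie in a given number field. -/
theorem finite_setOf_mem (N : IntermediateField ℚ Qb) [FiniteDimensional ℚ N] :
    {k | w k ∈ N}.Finite := by
  classical
  have : IsGalois ℚ Qb := FA.Local.isGalois_qbar
  let f : {k // w k ∈ N} → (N →ₐ[ℚ] Qb) → Prop := fun k σ => σ ⟨w k.1, k.2⟩ = w k.1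
  rw [← Set.finite_coe_iff]
  refine Finite.of_injective (β := (N →ₐ[ℚ] Qb) → Prop) f fun k l hkl => ?_
  by_contra hne
  refine hne (Subtype.ext (hd ?_))
  have hfix : ∀ g : GQ, g (w k.1 * w l.1) = w k.1 * w l.1 := fun g => by
    have h := congrFun hkl ((g : Qb →ₐ[ℚ] Qb).comp N.val)
    simp only [f, eq_iff_iff] at h
    change g (w k.1) = w k.1 ↔ g (w l.1) = w l.1 at h
    rw [map_mul]
    rcases apply_eq_or_eq_neg hw g k.1 with e₁ | e₁
    · rw [e₁, h.1 e₁]
    · rcases apply_eq_or_eq_neg hw g l.1 with e₂ | e₂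
      · rw [h.2 e₂, e₂]
      · rw [e₁, e₂, neg_mul_neg]
  obtain ⟨q, hq⟩ := (InfiniteGalois.mem_range_algebraMap_iff_fixed _).2 hfix
  have hq2 : q ^ 2 = ((d k.1 * d l.1 : ℤ) : ℚ) := (algebraMap ℚ Qb).injective (by
    rw [map_pow, hq, mul_pow, hw, hw, map_intCast, Int.cast_mul])
  have hden : q.den = 1 := by
    have := congrArg Rat.den hq2
    rw [Rat.den_pow, Rat.den_intCast] at this
    exact (pow_eq_one_iff.1 this).resolve_right two_ne_zero
  refine eq_of_squarefree_mul_eq_sq (c := q.num) (hsf _) (hsf _) ?_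
  rw [← Rat.coe_int_num_of_den_eq_one hden] at hq2
  exact_mod_cast hq2.symm

variable (K : IntermediateField ℚ Qb) [FiniteDimensional ℚ K]

omit [FiniteDimensional ℚ K] in
include hw in
/-- The sign with which an element acts on a square root. -/
theorem exists_signHom (k : ℕ) : ∃ χ : K.fixingSubgroup →* ℤˣ,
    ∀ g, (χ g = 1 ↔ (g : GQ) (w k) = w k) := by
  classical
  rcases eq_or_ne (w k) 0 with h0 | h0
  · exact ⟨1, fun g => by simp [h0]⟩
  have hne : -w k ≠ w k := fun h => h0 (neg_eq_self.1 h)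
  refine ⟨MonoidHom.mk' (fun g => if (g : GQ) (w k) = w k then 1 else -1) fun g g' => ?_,
    fun g => by show (if _ then _ else _) = _ ↔ _; split_ifs with h <;> simp [h]⟩
  rcases apply_eq_or_eq_neg hw (g : GQ) k with e | e <;>
    rcases apply_eq_or_eq_neg hw (g' : GQ) k with e' | e' <;>
      simp [AlgEquiv.mul_apply, e, e', hne]

include hw hd hsf in
/-- For every `m` some `m` of the square roots beyond any bound are independent over `K`. -/
theorem exists_surjective_signs (b m : ℕ) :
    ∃ (k : Fin m → ℕ) (χ : K.fixingSubgroup →* (Fin m → ℤˣ)), (∀ i, b ≤ k i) ∧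
      Function.Surjective χ ∧ IsOpen (χ.ker : Set K.fixingSubgroup) ∧
      ∀ g i, (χ g i = 1 ↔ (g : GQ) (w (k i)) = w (k i)) := by
  classical
  have : IsGalois ℚ Qb := FA.Local.isGalois_qbar
  have hadj : ∀ s : Set Qb, s.Finite → FiniteDimensional ℚ (IntermediateField.adjoin ℚ s) :=
    fun s hs => by
      have := hs.to_subtype
      exact IntermediateField.finiteDimensional_adjoin fun x _ => Algebra.IsIntegral.isIntegral x
  induction m with
  | zero =>
    exact ⟨Fin.elim0, 1, fun i => i.elim0, fun x => ⟨1, Subsingleton.elim _ _⟩,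
      by rw [MonoidHom.ker_one]; exact isOpen_univ, fun g i => i.elim0⟩
  | succ m ih =>
    obtain ⟨k, χ, hk, hχ, hopen, hval⟩ := ih
    set L := IntermediateField.adjoin ℚ (Set.range fun i => w (k i))
    have := hadj _ (Set.finite_range fun i => w (k i))
    obtain ⟨k₀, hk₀, hk₀N⟩ := ((Set.Ici_infinite b).sdiff
      (finite_setOf_mem hw hd hsf (K ⊔ L))).nonempty
    obtain ⟨g, hg, hgw⟩ : ∃ g : GQ, g ∈ (K ⊔ L).fixingSubgroup ∧ g (w k₀) ≠ w k₀ := by
      by_contra! hcon
      refine hk₀N ?_
      rw [Set.mem_ofPred_eq, ← InfiniteGalois.fixedField_fixingSubgroup (K ⊔ L)]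
      exact (IntermediateField.mem_fixedField_iff _ _).2 hcon
    obtain ⟨χ₀, hχ₀⟩ := exists_signHom hw K k₀
    let g' : K.fixingSubgroup := ⟨g, IntermediateField.fixingSubgroup_le le_sup_left hg⟩
    have hg₀ : χ₀ g' = -1 := (Int.units_eq_one_or _).resolve_left fun h => hgw ((hχ₀ g').1 h)
    have hgχ : χ g' = 1 := funext fun i => (hval g' i).2
      ((IntermediateField.mem_fixingSubgroup_iff _ _).1
        (IntermediateField.fixingSubgroup_le le_sup_right hg) _
        (IntermediateField.subset_adjoin ℚ _ ⟨i, rfl⟩))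
    let χ' : K.fixingSubgroup →* (Fin (m + 1) → ℤˣ) :=
      MonoidHom.mk' (fun x => Fin.cons (χ₀ x) (χ x)) fun x y => by
        funext i
        refine Fin.cases ?_ ?_ i <;> simp
    refine ⟨Fin.cons k₀ k, χ', fun i => Fin.cases hk₀ hk i, fun x => ?_, ?_,
      fun x i => Fin.cases ?_ (fun i => ?_) i⟩
    · obtain ⟨y, hy⟩ := hχ (Fin.tail x)
      rcases Int.units_eq_one_or (χ₀ y * x 0) with h | h
      · refine ⟨y, ?_⟩
        rw [← Fin.cons_self_tail x, ← hy,
          ← show χ₀ y = x 0 by rw [mul_eq_one_iff_eq_inv.1 h, Int.units_inv_eq_self]]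
        rfl
      · refine ⟨y * g', ?_⟩
        show Fin.cons (χ₀ (y * g')) (χ (y * g')) = x
        rw [map_mul, map_mul, hgχ, hg₀, mul_one, hy, ← h, ← mul_assoc, Int.units_mul_self,
          one_mul, Fin.cons_self_tail]
    · have := hadj {w k₀} (Set.finite_singleton _)
      refine Subgroup.isOpen_mono (H₁ := χ.ker ⊓
        (IntermediateField.adjoin ℚ {w k₀}).fixingSubgroup.comap K.fixingSubgroup.subtype)
        (fun x hx => ?_) (hopen.inter ((IntermediateField.fixingSubgroup_isOpen _).preimage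
          continuous_subtype_val))
      rw [MonoidHom.mem_ker]
      show Fin.cons (χ₀ x) (χ x) = (1 : Fin (m + 1) → ℤˣ)
      rw [MonoidHom.mem_ker.1 hx.1, (hχ₀ x).2 ((IntermediateField.mem_fixingSubgroup_iff _ _).1
        hx.2 _ (IntermediateField.mem_adjoin_simple_self ℚ _))]
      exact funext fun i => Fin.cases rfl (fun _ => rfl) i
    · simpa [χ'] using hχ₀ x
    · simpa [χ'] using hval x i

variable {e : ℕ} [MeasurableSpace (Fin e → K.fixingSubgroup)]
  [BorelSpace (Fin e → K.fixingSubgroup)] (μ : Measure (Fin e → K.fixingSubgroup))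
  [IsProbabilityMeasure μ] [μ.IsMulLeftInvariant]

include hw hd hsf in
/-- **Almost every tuple fixes square roots beyond every bound.** -/
theorem ae_fixes_sqrt :
    ∀ᵐ σ ∂μ, ∀ b, ∃ k, b ≤ k ∧ ∀ i, (σ i : GQ) (w k) = w k := by
  rw [ae_all_iff]
  intro b
  refine FreeGenerators.ae_exists_value μ (1 : Fin e → ℤˣ) _ fun m => ?_
  obtain ⟨k, χ, hk, hχ, hopen, hval⟩ := exists_surjective_signs hw hd hsf K b m
  let Φ : (Fin e → K.fixingSubgroup) →* (Fin m → Fin e → ℤˣ) :=
    MonoidHom.mk' (fun σ i j => χ (σ j) i) fun σ τ => by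
      funext i j
      simp
  refine ⟨Φ, fun x => ?_, ?_,
    fun σ i h => ⟨k i, hk i, fun j => (hval (σ j) i).1 (congrFun h j)⟩⟩
  · choose σ hσ using fun j => hχ fun i => x i j
    exact ⟨σ, funext fun i => funext fun j => congrFun (hσ j) i⟩
  · have hker : (Φ.ker : Set (Fin e → K.fixingSubgroup)) =
        Set.pi Set.univ fun _ => (χ.ker : Set K.fixingSubgroup) := by
      ext σ
      simp only [SetLike.mem_coe, MonoidHom.mem_ker, Set.mem_univ_pi]
      exact ⟨fun h j => funext fun i => congrFun (congrFun h i) j,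
        fun h => funext fun i => funext fun j => congrFun (h j) i⟩
    rw [hker]
    exact isOpen_set_pi Set.finite_univ fun _ _ => hopen

end Fermat.Agent.RandomFields
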