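import Mathlib
import Fermat.Agent.Root.SummaryPseudoAlgClosed

/-!
# Fermat curves over pseudo algebraically closed fields

By Eisenstein at `T - 1` the polynomial `X ^ n + T ^ n - 1` is irreducible over `ℚ̄`, so over a
pseudo algebraically closed field the equation `x ^ n + y ^ n = 1` has solutions with `x` outside any
finite set.
-/

set_option autoImplicit false

noncomputable section

namespace Fermat.Agent.RandomFields

open Polynomial PseudoAlgClosed
open scoped Polynomial

local notation "Qb" => AlgebraicClosure ℚ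

/-- `X ^ n + (T ^ n - 1)` is irreducible over a field in which `n ≠ 0`. -/
theorem irreducible_fermatCurve {k : Type*} [Field k] {n : ℕ} (hn : (n : k) ≠ 0) :
    Irreducible ((X : k[X][X]) ^ n + C (X ^ n - 1)) := by
  have hn' : n ≠ 0 := fun h => hn (by rw [h, Nat.cast_zero])
  set P : Ideal k[X] := Ideal.span {X - C 1}
  have hP : P.IsPrime := (Ideal.span_singleton_prime (X_sub_C_ne_zero 1)).2 (prime_X_sub_C 1)
  have hm : ((X : k[X][X]) ^ n + C (X ^ n - 1)).Monic := monic_X_pow_add_C _ hn'
  have hd : ((X : k[X][X]) ^ n + C (X ^ n - 1)).natDegree = n := natDegree_X_pow_add_C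
  have hE : ((X : k[X][X]) ^ n + C (X ^ n - 1)).IsEisensteinAt P := by
    refine ⟨?_, fun {i} hi => ?_, ?_⟩
    · rw [hm.leadingCoeff]
      exact fun h => hP.ne_top ((Ideal.eq_top_iff_one _).2 h)
    · rw [hd] at hi
      rcases eq_or_ne i 0 with rfl | h0
      · rw [coeff_add, coeff_X_pow, if_neg hn'.symm, coeff_C_zero, zero_add,
          Ideal.mem_span_singleton, dvd_iff_isRoot]
        simp
      · rw [coeff_add, coeff_X_pow, if_neg hi.ne, coeff_C, if_neg h0, add_zero]
        exact zero_mem P
    · rw [coeff_add, coeff_X_pow, if_neg hn'.symm, coeff_C_zero, zero_add, Ideal.span_singleton_pow,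
        Ideal.mem_span_singleton]
      intro h
      obtain ⟨q, hq⟩ := h
      have h1 : (derivative (X ^ n - 1 : k[X])).eval 1 = 0 := by
        rw [hq, derivative_mul, derivative_pow]
        simp
      refine hn ?_
      simpa [derivative_X_pow] using h1
  exact hE.irreducible hP hm.isPrimitive (by rw [hd]; exact Nat.pos_of_ne_zero hn')

/-- **Fermat's equation over a pseudo algebraically closed field.** -/
theorem exists_fermat_solution {F : IntermediateField ℚ Qb} (hF : IsPseudoAlgClosed F) {n : ℕ}
    (hn : 0 < n) (S : Finset F) :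
    ∃ x y : F, x ∉ S ∧ x ≠ 0 ∧ y ≠ 0 ∧ x ^ n + y ^ n = 1 := by
  classical
  set f : (↥F)[X][X] := X ^ n + C (X ^ n - 1) with hf
  have hirr : Irreducible (f.map (mapRingHom (algebraMap F Qb))) := by
    rw [hf, Polynomial.map_add, Polynomial.map_pow, map_X, map_C]
    simp only [coe_mapRingHom, Polynomial.map_sub, Polynomial.map_pow, map_X, Polynomial.map_one]
    exact irreducible_fermatCurve (Nat.cast_ne_zero.2 hn.ne')
  have hd : f.natDegree ≠ 0 := by
    rw [hf, natDegree_X_pow_add_C]
    exact hn.ne'
  obtain ⟨x, hx, y, hy⟩ := hF f hirr hd (insert 0 (S ∪ (nthRoots n (1 : F)).toFinset))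
  simp only [Finset.mem_insert, Finset.mem_union, Multiset.mem_toFinset, mem_nthRoots hn,
    not_or] at hx
  have h : y ^ n + (x ^ n - 1) = 0 := by
    simpa [hf, IsRoot] using hy
  refine ⟨x, y, hx.2.1, hx.1, fun h0 => hx.2.2 ?_, by linear_combination h⟩
  rw [h0, zero_pow hn.ne', zero_add, sub_eq_zero] at h
  exact h

end Fermat.Agent.RandomFields
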